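import Fermat.Agent.S21.E.Defs

/-!
# Project ES, part E, work package E-API: degree zero means constant

* `Api.const_of_zero_aux` : a weakly holomorphic function of degree `0` is constant.
* `Api.d_pos_aux` : in a tuple, every member other than the one at `x0` has degree `≥ 1`.
-/

set_option autoImplicit false

open UpperHalfPlane hiding I
open Complex Filter Function Topology
open scoped Manifold MatrixGroups ModularForm Real

namespace Fermat.Agent.S21.E

noncomputable section

local notation "Δ" => ModularForm.discriminant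

variable {Γ : Subgroup SL(2, ℤ)}

namespace Api

theorem const_of_zero_aux_slash (f : ℍ → ℂ) (g : SL(2, ℤ)) : (f ∣[(0 : ℤ)] g) = fun z => f (g • z) := by
  ext z
  rw [ModularForm.SL_slash_apply]
  simp

/-- a weakly holomorphic function of degree `0` is constant -/
theorem const_of_zero_aux [Γ.FiniteIndex] {f : ℍ → ℂ} (hf : IsWH Γ 0 f) :
    ∃ a : ℂ, f = fun _ => a := by
  let F : ModularForm (Γ.map (Matrix.SpecialLinearGroup.mapGL ℝ)) 0 :=
    { toFun := f
      slash_action_eq' := by
        rintro γ ⟨g, hg, rfl⟩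
        have h2 : f ∣[(0 : ℤ)] (Matrix.SpecialLinearGroup.mapGL ℝ g) = fun z => f (g • z) :=
          const_of_zero_aux_slash f g
        rw [h2]
        ext z
        exact hf.inv g hg z
      holo' := hf.holo
      bdd_at_cusps' := by
        intro c hc
        rw [Subgroup.IsArithmetic.isCusp_iff_isCusp_SL2Z] at hc
        rw [OnePoint.isBoundedAt_iff_forall_SL2Z hc]
        intro γ _
        rw [const_of_zero_aux_slash]
        have := hf.bdd γ
        simpa using this }
  obtain ⟨c, hc⟩ := ModularForm.eq_const_of_weight_zero F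
  exact ⟨c, hc⟩

/-- in a tuple, every member other than the constant one has positive degree -/
theorem d_pos_aux [Fintype (SL(2, ℤ) ⧸ Γ)] [DecidableEq (SL(2, ℤ) ⧸ Γ)] [Γ.FiniteIndex]
    (t : Tuple Γ) (k : SL(2, ℤ) ⧸ Γ) (hk : k ≠ x0 Γ) : 1 ≤ t.d k := by
  by_contra h
  have h0 : t.d k = 0 := by omega
  have hwh : IsWH Γ 0 (t.v k) := h0 ▸ t.wh k
  obtain ⟨a, ha⟩ := const_of_zero_aux hwh
  obtain ⟨z, hz⟩ := t.nondeg
  apply hz
  have hrow : (cmat Γ t.v z) k = a • (cmat Γ t.v z) (x0 Γ) := by
    ext x
    simp [cmat, cj, ha, t.v_one]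
  have h1 : cmat Γ t.v z = (cmat Γ t.v z).updateRow k (a • (cmat Γ t.v z) (x0 Γ)) := by
    rw [← hrow, Matrix.updateRow_eq_self]
  rw [h1, Matrix.det_updateRow_smul, Matrix.det_updateRow_eq_zero (Ne.symm hk), mul_zero]

end Api

end

end Fermat.Agent.S21.E
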